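/-
GATE-F (S40) / FORMAL-ADD, bridge file (helper33): from the `Algebra.adjoin` spelling of the
contract `AddSpec` (`GS/Frame/Vocab.lean`) to the POLYNOMIAL spelling consumed by INTERP.

* `exists_mvPolynomial_of_mem_adjoin` (Mathlib-only): a function `f : Z → K` in the `A`-algebra
  generated by the functions `g i : Z → K` is `z ↦ aeval (fun i => g i z) P` for ONE polynomial
  `P : MvPolynomial ι A`.
* `coordSet_eq_range` : the generating set of `AddSpec` is the range of
  `Sum.elim (fun i z => τ z i) (fun i z => σ z i)`.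
* `AddSpec.exists_poly` : under `AddSpec Φ n`, for three pairwise disjoint charts and every finite
  family of pairs of classes with coordinates `τ z`, `σ z` and sum coordinates `μ z`, every `μ · j`
  is given by one polynomial over `Φ.A` in the `2n` variables `Fin n ⊕ Fin n`:
  `μ z j = aeval (Sum.elim (τ z) (σ z)) P`.
-/
import Mathlib
import Fermat.Agent.GS.Frame.Vocab

set_option autoImplicit false
set_option linter.unusedSectionVars false

noncomputable section

open AlgebraicCurve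

namespace Fermat.Agent.GF.FormalAdd.AdjoinPoly

/-! ### Mathlib-only: membership in `Algebra.adjoin` of a family of functions -/

section Pure

variable {A K : Type*} [CommSemiring A] [CommSemiring K] [Algebra A K] {Z ι : Type*}

/-- evaluation at a point of a polynomial expression in functions. -/
theorem aeval_pi_apply (g : ι → Z → K) (P : MvPolynomial ι A) (z : Z) :
    (MvPolynomial.aeval g P : Z → K) z = MvPolynomial.aeval (fun i => g i z) P := by
  have h : (Pi.evalAlgHom A (fun _ : Z => K) z).comp (MvPolynomial.aeval g)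
      = MvPolynomial.aeval (fun i => g i z) := by
    refine MvPolynomial.algHom_ext fun i => ?_
    simp
  exact congrArg (fun φ : MvPolynomial ι A →ₐ[A] K => φ P) h

/-- a function in the algebra generated by a family of functions is ONE polynomial in them. -/
theorem exists_mvPolynomial_of_mem_adjoin (g : ι → Z → K) {f : Z → K}
    (hf : f ∈ Algebra.adjoin A (Set.range g)) :
    ∃ P : MvPolynomial ι A, ∀ z, f z = MvPolynomial.aeval (fun i => g i z) P := by
  rw [Algebra.adjoin_range_eq_range_aeval] at hf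
  obtain ⟨P, rfl⟩ := hf
  exact ⟨P, fun z => aeval_pi_apply g P z⟩

/-- conversely. -/
theorem mem_adjoin_of_forall_eq_aeval (g : ι → Z → K) {f : Z → K} (P : MvPolynomial ι A)
    (hf : ∀ z, f z = MvPolynomial.aeval (fun i => g i z) P) :
    f ∈ Algebra.adjoin A (Set.range g) := by
  rw [Algebra.adjoin_range_eq_range_aeval]
  exact ⟨P, funext fun z => by rw [hf z]; exact aeval_pi_apply g P z⟩

end Pure

/-! ### the generating set of `AddSpec` -/

section Coord

variable {K : Type*} {Z : Type*} {n : ℕ}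

/-- the generating set of `AddSpec` is the range of the `2n` coordinate functions. -/
theorem coordSet_eq_range (τ σ : Z → Fin n → K) :
    ({f : Z → K | ∃ i, f = fun z => τ z i} ∪ {f | ∃ i, f = fun z => σ z i})
      = Set.range (Sum.elim (fun i z => τ z i) (fun i z => σ z i) : Fin n ⊕ Fin n → Z → K) := by
  ext f
  constructor
  · rintro (⟨i, rfl⟩ | ⟨i, rfl⟩)
    · exact ⟨Sum.inl i, rfl⟩
    · exact ⟨Sum.inr i, rfl⟩
  · rintro ⟨i | i, rfl⟩
    · exact Or.inl ⟨i, rfl⟩
    · exact Or.inr ⟨i, rfl⟩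

theorem sumElim_coord_apply (τ σ : Z → Fin n → K) (z : Z) :
    (fun i => (Sum.elim (fun i z => τ z i) (fun i z => σ z i) : Fin n ⊕ Fin n → Z → K) i z)
      = Sum.elim (τ z) (σ z) := by
  funext i
  cases i <;> rfl

end Coord

/-! ### `AddSpec` in polynomial form -/

open Fermat.Agent.RRh45 Fermat.Agent.GH Fermat.Agent.GS.Frame

variable {K F k Sp 𝒬 : Type*} [Field K] [Field F] [Algebra K F] [Field k]
  [CommRing Sp] [Algebra k Sp]

variable {Φ : DiscData K F k Sp 𝒬} {n : ℕ}

/-- a member of the coordinate algebra of `AddSpec` is one polynomial over `Φ.A` in the `2n`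
coordinates. -/
theorem exists_poly_of_mem_coordAlg {Z : Type*} (τ σ : Z → Fin n → K) {f : Z → K}
    (hf : f ∈ Algebra.adjoin Φ.A
      ({f : Z → K | ∃ i, f = fun z => τ z i} ∪ {f | ∃ i, f = fun z => σ z i})) :
    ∃ P : MvPolynomial (Fin n ⊕ Fin n) Φ.A,
      ∀ z, f z = MvPolynomial.aeval (Sum.elim (τ z) (σ z)) P := by
  rw [coordSet_eq_range] at hf
  obtain ⟨P, hP⟩ := exists_mvPolynomial_of_mem_adjoin _ hf
  refine ⟨P, fun z => ?_⟩
  rw [hP z, sumElim_coord_apply]

/-- **`AddSpec` in polynomial form**: on every finite family, each coordinate of the sum is ONE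
polynomial over `Φ.A` in the coordinates of the summands. -/
theorem _root_.Fermat.Agent.GS.Frame.AddSpec.exists_poly (h : AddSpec Φ n)
    (𝔞 𝔟 𝔠 : Chart Φ n) (hab : Disjoint 𝔞.supp 𝔟.supp) (hac : Disjoint 𝔞.supp 𝔠.supp)
    (hbc : Disjoint 𝔟.supp 𝔠.supp) (Z : Type) [Finite Z] (ξ η : Z → Pic0 K F)
    (τ σ μ : Z → Fin n → K) (hξ : ∀ z, IsCoord 𝔞 (ξ z) (τ z)) (hη : ∀ z, IsCoord 𝔟 (η z) (σ z))
    (hμ : ∀ z, IsCoord 𝔠 (ξ z + η z) (μ z)) (j : Fin n) :
    ∃ P : MvPolynomial (Fin n ⊕ Fin n) Φ.A,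
      ∀ z, μ z j = MvPolynomial.aeval (Sum.elim (τ z) (σ z)) P :=
  exists_poly_of_mem_coordAlg τ σ (h 𝔞 𝔟 𝔠 hab hac hbc Z ξ η τ σ μ hξ hη hμ j)

/-- all coordinates at once. -/
theorem _root_.Fermat.Agent.GS.Frame.AddSpec.exists_polys (h : AddSpec Φ n)
    (𝔞 𝔟 𝔠 : Chart Φ n) (hab : Disjoint 𝔞.supp 𝔟.supp) (hac : Disjoint 𝔞.supp 𝔠.supp)
    (hbc : Disjoint 𝔟.supp 𝔠.supp) (Z : Type) [Finite Z] (ξ η : Z → Pic0 K F)
    (τ σ μ : Z → Fin n → K) (hξ : ∀ z, IsCoord 𝔞 (ξ z) (τ z)) (hη : ∀ z, IsCoord 𝔟 (η z) (σ z))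
    (hμ : ∀ z, IsCoord 𝔠 (ξ z + η z) (μ z)) :
    ∃ P : Fin n → MvPolynomial (Fin n ⊕ Fin n) Φ.A,
      ∀ z j, μ z j = MvPolynomial.aeval (Sum.elim (τ z) (σ z)) (P j) := by
  choose P hP using fun j => h.exists_poly 𝔞 𝔟 𝔠 hab hac hbc Z ξ η τ σ μ hξ hη hμ j
  exact ⟨P, fun z j => hP j z⟩

end Fermat.Agent.GF.FormalAdd.AdjoinPoly
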