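/-
GATE-F (S40) / node GF-FORMAL-ADD-FIN (helper38): the FRAME half of FORMAL-ADD.

Over the ABSTRACT disc frame `Φ : DiscData K F k Sp 𝒬` of `GS/Frame/Vocab.lean` (instances: the
smooth frame of GATE-H, e.g. on the function field of an elliptic curve with good reduction, and
the nodal frame of GATE-S on `J₀(pM')`), for a subgroup `𝒦 ≤ Pic⁰` ("kernel of reduction") with the
coordinate contracts, the group law of `𝒦` read in the coordinates of ONE chart `𝔠`,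

  `Δ_𝔠 (x, y) := coord_𝔠 (pt_𝔠 x + pt_𝔠 y)`   (`x, y` small vectors),

is a **(FIN)-function**: on every FINITE family of pairs it is given by polynomials over the
valuation ring `Φ.A` (`delta_fin`).  This is exactly the input shape of the Mathlib-only
interpolation lemma INTERP (helper17, `GF/Interp/*`), which turns a (FIN)-function into ONE family
of Taylor coefficients; the group axioms are proved here AT FUNCTION LEVEL (`delta_zero_right`,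
`delta_comm`, `delta_assoc`, `delta_neg`) and transfer to the coefficients by uniqueness.

* `Contracts Φ n 𝒦`  : `AddSpec`, `CoordUnique`, `CoordSmall`, `CoordInj`, `ChartSupply` (all from
  `GS/Frame/Gen/Main.frame_target` + the instance), `CoordExists 𝒦`, and the NEW contract
  `CoordSurj 𝒦` (every small vector is a coordinate vector of a class of `𝒦`).
* `ptOf`, `coordOf`  : the two mutually inverse maps; `transFun`, `addFun`, `delta`.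
* `exists_poly_of_mem_adjoin` : membership in `Algebra.adjoin` of coordinate functions on a finite
  family = ONE polynomial over `Φ.A` evaluated pointwise.
* `addFun_fin`, `transFun_fin`, `delta_fin` : the (FIN) statements.
-/
import Mathlib
import Fermat.Agent.GS.Frame.Vocab

set_option autoImplicit false
set_option linter.unusedSectionVars false

noncomputable section

open AlgebraicCurve

namespace Fermat.Agent.GF.FormalAdd

open Fermat.Agent.GH Fermat.Agent.GS.Frame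

open scoped Classical

variable {K F k Sp 𝒬 : Type*} [Field K] [Field F] [Algebra K F] [Field k]
  [CommRing Sp] [Algebra k Sp]

/-! ### polynomials from `Algebra.adjoin` -/

/-- a function on `Z` lying in the `A`-algebra generated by the functions `f i` is ONE polynomial
over `A` in the `f i`, evaluated pointwise. -/
theorem exists_poly_of_mem_adjoin {A : Type*} [CommRing A] [Algebra A K] {ι Z : Type*}
    (f : ι → Z → K) {h : Z → K} (hmem : h ∈ Algebra.adjoin A (Set.range f)) :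
    ∃ P : MvPolynomial ι A, ∀ z, h z = MvPolynomial.aeval (fun i => f i z) P := by
  rw [Algebra.adjoin_range_eq_range_aeval] at hmem
  obtain ⟨P, rfl⟩ := hmem
  refine ⟨P, fun z => ?_⟩
  exact MvPolynomial.comp_aeval_apply f (Pi.evalAlgHom A (fun _ : Z => K) z) P

variable (Φ : DiscData K F k Sp 𝒬) (n : ℕ)

/-- small vectors: all entries in the maximal ideal of `Φ.A`. -/
def Small (τ : Fin n → K) : Prop := ∀ i, Φ.A.valuation (τ i) < 1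

/-- NEW contract: every small vector is the coordinate vector of a class of `𝒦`, in every chart. -/
def CoordSurj (𝒦 : Set (Pic0 K F)) : Prop :=
  ∀ (𝔠 : Chart Φ n) (τ : Fin n → K), Small Φ n τ → ∃ ξ ∈ 𝒦, IsCoord 𝔠 ξ τ

/-- the contracts consumed by the (FIN)-form of the group law. -/
structure Contracts (𝒦 : AddSubgroup (Pic0 K F)) : Prop where
  add : AddSpec Φ n
  uniq : CoordUnique Φ n
  small : CoordSmall Φ n
  inj : CoordInj Φ n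
  supply : ChartSupply Φ n
  ex : CoordExists Φ n (𝒦 : Set (Pic0 K F))
  surj : CoordSurj Φ n (𝒦 : Set (Pic0 K F))

variable {Φ n}

theorem small_zero : Small Φ n 0 := fun i => by simp

/-- the origin has coordinates `0` in every chart. -/
theorem isCoord_zero (𝔠 : Chart Φ n) : IsCoord 𝔠 (0 : Pic0 K F) 0 := by
  refine ⟨fun i => (𝔠.pt i).P, fun i => (𝔠.pt i).hP, fun i => (𝔠.pt i).ht0, ?_⟩
  have h0 : (∑ i, Finsupp.single (𝔠.pt i).P (1 : ℤ)) - 𝔠.D0 = 0 := sub_self _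
  refine ⟨by rw [h0]; exact zero_mem _, ?_⟩
  have : (⟨(∑ i, Finsupp.single (𝔠.pt i).P (1 : ℤ)) - 𝔠.D0, by rw [h0]; exact zero_mem _⟩ :
      Divisor.degZero (K := K) (F := F)) = 0 := Subtype.ext h0
  rw [this, Pic0.mk_zero]

/-- the class with coordinate vector `τ` in the chart `𝔠` (`0` if there is none in `𝒦`). -/
def ptOf (𝒦 : AddSubgroup (Pic0 K F)) (𝔠 : Chart Φ n) (τ : Fin n → K) : Pic0 K F :=
  if h : ∃ ξ ∈ 𝒦, IsCoord 𝔠 ξ τ then Classical.choose h else 0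

/-- the coordinate vector of `ξ` in the chart `𝔠` (`0` if there is none). -/
def coordOf (𝔠 : Chart Φ n) (ξ : Pic0 K F) : Fin n → K :=
  if h : ∃ τ, IsCoord 𝔠 ξ τ then Classical.choose h else 0

section Maps

variable {𝒦 : AddSubgroup (Pic0 K F)} (C : Contracts Φ n 𝒦)

include C

theorem ptOf_mem (𝔠 : Chart Φ n) (τ : Fin n → K) : ptOf 𝒦 𝔠 τ ∈ 𝒦 := by
  unfold ptOf
  split_ifs with h
  · exact (Classical.choose_spec h).1
  · exact zero_mem _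

theorem isCoord_ptOf (𝔠 : Chart Φ n) {τ : Fin n → K} (hτ : Small Φ n τ) :
    IsCoord 𝔠 (ptOf 𝒦 𝔠 τ) τ := by
  have h : ∃ ξ ∈ 𝒦, IsCoord 𝔠 ξ τ := C.surj 𝔠 τ hτ
  unfold ptOf
  rw [dif_pos h]
  exact (Classical.choose_spec h).2

theorem isCoord_coordOf (𝔠 : Chart Φ n) {ξ : Pic0 K F} (hξ : ξ ∈ 𝒦) :
    IsCoord 𝔠 ξ (coordOf 𝔠 ξ) := by
  have h := C.ex 𝔠 ξ hξ
  unfold coordOf
  rw [dif_pos h]
  exact Classical.choose_spec h

theorem small_coordOf (𝔠 : Chart Φ n) {ξ : Pic0 K F} (hξ : ξ ∈ 𝒦) : Small Φ n (coordOf 𝔠 ξ) :=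
  C.small 𝔠 ξ _ (isCoord_coordOf C 𝔠 hξ)

theorem coordOf_eq (𝔠 : Chart Φ n) {ξ : Pic0 K F} {τ : Fin n → K} (h : IsCoord 𝔠 ξ τ)
    (hξ : ξ ∈ 𝒦) : coordOf 𝔠 ξ = τ :=
  C.uniq 𝔠 ξ _ _ (isCoord_coordOf C 𝔠 hξ) h

theorem coordOf_ptOf (𝔠 : Chart Φ n) {τ : Fin n → K} (hτ : Small Φ n τ) :
    coordOf 𝔠 (ptOf 𝒦 𝔠 τ) = τ :=
  coordOf_eq C 𝔠 (isCoord_ptOf C 𝔠 hτ) (ptOf_mem C 𝔠 τ)

theorem ptOf_coordOf (𝔠 : Chart Φ n) {ξ : Pic0 K F} (hξ : ξ ∈ 𝒦) :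
    ptOf 𝒦 𝔠 (coordOf 𝔠 ξ) = ξ :=
  C.inj 𝔠 _ _ _ (isCoord_ptOf C 𝔠 (small_coordOf C 𝔠 hξ)) (isCoord_coordOf C 𝔠 hξ)

theorem ptOf_zero (𝔠 : Chart Φ n) : ptOf 𝒦 𝔠 0 = 0 :=
  C.inj 𝔠 _ _ _ (isCoord_ptOf C 𝔠 small_zero) (isCoord_zero 𝔠)

theorem coordOf_zero (𝔠 : Chart Φ n) : coordOf 𝔠 (0 : Pic0 K F) = 0 :=
  coordOf_eq C 𝔠 (isCoord_zero 𝔠) (zero_mem _)

end Maps

/-! ### the three functions -/

/-- transition function between two charts. -/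
def transFun (𝒦 : AddSubgroup (Pic0 K F)) (𝔞 𝔠 : Chart Φ n) (x : Fin n → K) : Fin n → K :=
  coordOf 𝔠 (ptOf 𝒦 𝔞 x)

/-- the sum in three charts. -/
def addFun (𝒦 : AddSubgroup (Pic0 K F)) (𝔞 𝔟 𝔠 : Chart Φ n) (x y : Fin n → K) : Fin n → K :=
  coordOf 𝔠 (ptOf 𝒦 𝔞 x + ptOf 𝒦 𝔟 y)

/-- **the group law in the coordinates of ONE chart.** -/
def delta (𝒦 : AddSubgroup (Pic0 K F)) (𝔠 : Chart Φ n) (x y : Fin n → K) : Fin n → K :=
  coordOf 𝔠 (ptOf 𝒦 𝔠 x + ptOf 𝒦 𝔠 y)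

/-- the inverse in the coordinates of one chart. -/
def negFun (𝒦 : AddSubgroup (Pic0 K F)) (𝔠 : Chart Φ n) (x : Fin n → K) : Fin n → K :=
  coordOf 𝔠 (-ptOf 𝒦 𝔠 x)

section Axioms

variable {𝒦 : AddSubgroup (Pic0 K F)} (C : Contracts Φ n 𝒦)

include C

theorem small_delta (𝔠 : Chart Φ n) (x y : Fin n → K) : Small Φ n (delta 𝒦 𝔠 x y) :=
  small_coordOf C 𝔠 (add_mem (ptOf_mem C 𝔠 x) (ptOf_mem C 𝔠 y))

theorem small_negFun (𝔠 : Chart Φ n) (x : Fin n → K) : Small Φ n (negFun 𝒦 𝔠 x) :=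
  small_coordOf C 𝔠 (neg_mem (ptOf_mem C 𝔠 x))

theorem small_transFun (𝔞 𝔠 : Chart Φ n) (x : Fin n → K) : Small Φ n (transFun 𝒦 𝔞 𝔠 x) :=
  small_coordOf C 𝔠 (ptOf_mem C 𝔞 x)

theorem small_addFun (𝔞 𝔟 𝔠 : Chart Φ n) (x y : Fin n → K) : Small Φ n (addFun 𝒦 𝔞 𝔟 𝔠 x y) :=
  small_coordOf C 𝔠 (add_mem (ptOf_mem C 𝔞 x) (ptOf_mem C 𝔟 y))

/-- `Δ` computes the sum: `pt (Δ (x, y)) = pt x + pt y`. -/
theorem ptOf_delta (𝔠 : Chart Φ n) (x y : Fin n → K) :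
    ptOf 𝒦 𝔠 (delta 𝒦 𝔠 x y) = ptOf 𝒦 𝔠 x + ptOf 𝒦 𝔠 y :=
  ptOf_coordOf C 𝔠 (add_mem (ptOf_mem C 𝔠 x) (ptOf_mem C 𝔠 y))

/-- `Δ` computes the sum: `coord (ξ + η) = Δ (coord ξ, coord η)`. -/
theorem coordOf_add (𝔠 : Chart Φ n) {ξ η : Pic0 K F} (hξ : ξ ∈ 𝒦) (hη : η ∈ 𝒦) :
    coordOf 𝔠 (ξ + η) = delta 𝒦 𝔠 (coordOf 𝔠 ξ) (coordOf 𝔠 η) := by
  rw [delta, ptOf_coordOf C 𝔠 hξ, ptOf_coordOf C 𝔠 hη]

theorem delta_zero_right (𝔠 : Chart Φ n) {x : Fin n → K} (hx : Small Φ n x) :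
    delta 𝒦 𝔠 x 0 = x := by
  rw [delta, ptOf_zero C, add_zero, coordOf_ptOf C 𝔠 hx]

theorem delta_zero_left (𝔠 : Chart Φ n) {x : Fin n → K} (hx : Small Φ n x) :
    delta 𝒦 𝔠 0 x = x := by
  rw [delta, ptOf_zero C, zero_add, coordOf_ptOf C 𝔠 hx]

omit C in
theorem delta_comm (𝔠 : Chart Φ n) (x y : Fin n → K) : delta 𝒦 𝔠 x y = delta 𝒦 𝔠 y x := by
  rw [delta, delta, add_comm]

theorem delta_assoc (𝔠 : Chart Φ n) (x y z : Fin n → K) :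
    delta 𝒦 𝔠 (delta 𝒦 𝔠 x y) z = delta 𝒦 𝔠 x (delta 𝒦 𝔠 y z) := by
  rw [delta, ptOf_delta C, delta, ptOf_delta C, add_assoc]

theorem delta_negFun (𝔠 : Chart Φ n) (x : Fin n → K) :
    delta 𝒦 𝔠 x (negFun 𝒦 𝔠 x) = 0 := by
  rw [delta, negFun, ptOf_coordOf C 𝔠 (neg_mem (ptOf_mem C 𝔠 x)), add_neg_cancel, coordOf_zero C]

/-- the transition functions are mutually inverse. -/
theorem transFun_transFun (𝔞 𝔠 : Chart Φ n) {x : Fin n → K} (hx : Small Φ n x) :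
    transFun 𝒦 𝔠 𝔞 (transFun 𝒦 𝔞 𝔠 x) = x := by
  rw [transFun, transFun, ptOf_coordOf C 𝔠 (ptOf_mem C 𝔞 x), coordOf_ptOf C 𝔞 hx]

/-- the one-chart law through three charts. -/
theorem delta_eq_addFun (𝔞 𝔟 𝔠 : Chart Φ n) (x y : Fin n → K) :
    delta 𝒦 𝔠 x y = addFun 𝒦 𝔞 𝔟 𝔠 (transFun 𝒦 𝔠 𝔞 x) (transFun 𝒦 𝔠 𝔟 y) := by
  rw [delta, addFun, transFun, transFun, ptOf_coordOf C 𝔞 (ptOf_mem C 𝔠 x),
    ptOf_coordOf C 𝔟 (ptOf_mem C 𝔠 y)]

end Axioms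

/-! ### the (FIN) statements -/

section Fin

variable {𝒦 : AddSubgroup (Pic0 K F)} (C : Contracts Φ n 𝒦)

include C

/-- **(FIN) for the sum in three charts**: on a finite family of pairs of small vectors the `j`-th
coordinate of the sum is ONE polynomial over `Φ.A` in the `2n` coordinates. -/
theorem addFun_fin (𝔞 𝔟 𝔠 : Chart Φ n) (hab : Disjoint 𝔞.supp 𝔟.supp)
    (hac : Disjoint 𝔞.supp 𝔠.supp) (hbc : Disjoint 𝔟.supp 𝔠.supp)
    (Z : Type) [Finite Z] (x y : Z → Fin n → K) (hx : ∀ z, Small Φ n (x z))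
    (hy : ∀ z, Small Φ n (y z)) (j : Fin n) :
    ∃ P : MvPolynomial (Fin n ⊕ Fin n) Φ.A, ∀ z,
      addFun 𝒦 𝔞 𝔟 𝔠 (x z) (y z) j = MvPolynomial.aeval (Sum.elim (x z) (y z)) P := by
  have hmem := C.add 𝔞 𝔟 𝔠 hab hac hbc Z (fun z => ptOf 𝒦 𝔞 (x z)) (fun z => ptOf 𝒦 𝔟 (y z)) x y
    (fun z => addFun 𝒦 𝔞 𝔟 𝔠 (x z) (y z)) (fun z => isCoord_ptOf C 𝔞 (hx z))
    (fun z => isCoord_ptOf C 𝔟 (hy z))
    (fun z => isCoord_coordOf C 𝔠 (add_mem (ptOf_mem C 𝔞 _) (ptOf_mem C 𝔟 _))) j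
  set f : Fin n ⊕ Fin n → Z → K := fun i z => Sum.elim (x z) (y z) i with hf
  have hrange : ({f : Z → K | ∃ i, f = fun z => x z i} ∪ {f | ∃ i, f = fun z => y z i}) =
      Set.range f := by
    ext φ
    simp only [Set.mem_union, Set.mem_ofPred_eq, Set.mem_range, Sum.exists, hf, Sum.elim_inl,
      Sum.elim_inr]
    constructor
    · rintro (⟨i, rfl⟩ | ⟨i, rfl⟩)
      · exact Or.inl ⟨i, rfl⟩
      · exact Or.inr ⟨i, rfl⟩
    · rintro (⟨i, rfl⟩ | ⟨i, rfl⟩)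
      · exact Or.inl ⟨i, rfl⟩
      · exact Or.inr ⟨i, rfl⟩
  rw [hrange] at hmem
  obtain ⟨P, hP⟩ := exists_poly_of_mem_adjoin f hmem
  exact ⟨P, fun z => hP z⟩

/-- **(FIN) for the transition functions** (`𝔟` any third chart disjoint from both). -/
theorem transFun_fin (𝔞 𝔟 𝔠 : Chart Φ n) (hab : Disjoint 𝔞.supp 𝔟.supp)
    (hac : Disjoint 𝔞.supp 𝔠.supp) (hbc : Disjoint 𝔟.supp 𝔠.supp)
    (Z : Type) [Finite Z] (x : Z → Fin n → K) (hx : ∀ z, Small Φ n (x z)) (j : Fin n) :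
    ∃ P : MvPolynomial (Fin n) Φ.A, ∀ z,
      transFun 𝒦 𝔞 𝔠 (x z) j = MvPolynomial.aeval (x z) P := by
  obtain ⟨P, hP⟩ := addFun_fin C 𝔞 𝔟 𝔠 hab hac hbc Z x (fun _ => 0) hx (fun _ => small_zero) j
  refine ⟨MvPolynomial.aeval (Sum.elim MvPolynomial.X fun _ => 0) P, fun z => ?_⟩
  have h1 : transFun 𝒦 𝔞 𝔠 (x z) = addFun 𝒦 𝔞 𝔟 𝔠 (x z) 0 := by
    rw [transFun, addFun, ptOf_zero C, add_zero]
  rw [h1, hP z, MvPolynomial.comp_aeval_apply]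
  have h2 : (Sum.elim (x z) 0 : Fin n ⊕ Fin n → K) = fun i =>
      MvPolynomial.aeval (R := Φ.A) (x z)
        ((Sum.elim MvPolynomial.X fun _ => (0 : MvPolynomial (Fin n) Φ.A)) i) := by
    funext i
    rcases i with i | i
    · simp
    · simp
  rw [h2]

/-- **(FIN) for the group law in ONE chart.** -/
theorem delta_fin (𝔠 : Chart Φ n) (Z : Type) [Finite Z] (x y : Z → Fin n → K)
    (hx : ∀ z, Small Φ n (x z)) (hy : ∀ z, Small Φ n (y z)) (j : Fin n) :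
    ∃ P : MvPolynomial (Fin n ⊕ Fin n) Φ.A, ∀ z,
      delta 𝒦 𝔠 (x z) (y z) j = MvPolynomial.aeval (Sum.elim (x z) (y z)) P := by
  -- two more charts, pairwise disjoint from `𝔠` and from each other
  obtain ⟨𝔞, h𝔞⟩ := C.supply (Finset.univ.image 𝔠.Q)
  obtain ⟨𝔟, h𝔟⟩ := C.supply (Finset.univ.image 𝔠.Q ∪ Finset.univ.image 𝔞.Q)
  have hac : Disjoint 𝔞.supp 𝔠.supp := by
    rw [Set.disjoint_left]
    rintro Q ⟨i, rfl⟩ ⟨i', hi'⟩
    exact h𝔞 i (Finset.mem_image.mpr ⟨i', Finset.mem_univ _, hi'⟩)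
  have hbc : Disjoint 𝔟.supp 𝔠.supp := by
    rw [Set.disjoint_left]
    rintro Q ⟨i, rfl⟩ ⟨i', hi'⟩
    exact h𝔟 i (Finset.mem_union_left _ (Finset.mem_image.mpr ⟨i', Finset.mem_univ _, hi'⟩))
  have hab : Disjoint 𝔞.supp 𝔟.supp := by
    rw [Set.disjoint_left]
    rintro Q ⟨i', hi'⟩ ⟨i, rfl⟩
    exact h𝔟 i (Finset.mem_union_right _ (Finset.mem_image.mpr ⟨i', Finset.mem_univ _, hi'⟩))
  -- the three polynomial families
  have hTa : ∀ i : Fin n, ∃ P : MvPolynomial (Fin n) Φ.A, ∀ z,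
      transFun 𝒦 𝔠 𝔞 (x z) i = MvPolynomial.aeval (x z) P := fun i =>
    transFun_fin C 𝔠 𝔟 𝔞 hbc.symm hac.symm hab.symm Z x hx i
  have hTb : ∀ i : Fin n, ∃ P : MvPolynomial (Fin n) Φ.A, ∀ z,
      transFun 𝒦 𝔠 𝔟 (y z) i = MvPolynomial.aeval (y z) P := fun i =>
    transFun_fin C 𝔠 𝔞 𝔟 hac.symm hbc.symm hab Z y hy i
  choose Pa hPa using hTa
  choose Pb hPb using hTb
  obtain ⟨P, hP⟩ := addFun_fin C 𝔞 𝔟 𝔠 hab hac hbc Z (fun z => transFun 𝒦 𝔠 𝔞 (x z))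
    (fun z => transFun 𝒦 𝔠 𝔟 (y z)) (fun z => small_transFun C 𝔠 𝔞 _)
    (fun z => small_transFun C 𝔠 𝔟 _) j
  -- composition
  set sub : Fin n ⊕ Fin n → MvPolynomial (Fin n ⊕ Fin n) Φ.A :=
    Sum.elim (fun i => MvPolynomial.rename Sum.inl (Pa i))
      (fun i => MvPolynomial.rename Sum.inr (Pb i)) with hsub
  refine ⟨MvPolynomial.bind₁ sub P, fun z => ?_⟩
  rw [delta_eq_addFun C 𝔞 𝔟 𝔠, hP z, MvPolynomial.aeval_bind₁]
  have h2 : (Sum.elim (transFun 𝒦 𝔠 𝔞 (x z)) (transFun 𝒦 𝔠 𝔟 (y z)) : Fin n ⊕ Fin n → K) =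
      fun i => MvPolynomial.aeval (R := Φ.A) (Sum.elim (x z) (y z)) (sub i) := by
    funext i
    rcases i with i | i
    · simp only [Sum.elim_inl, hsub, MvPolynomial.aeval_rename, hPa i z]
      rfl
    · simp only [Sum.elim_inr, hsub, MvPolynomial.aeval_rename, hPb i z]
      rfl
  rw [h2]

end Fin

end Fermat.Agent.GF.FormalAdd
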