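/-
GATE-F (S40) / node GF-FORMAL-ADD-FIN, file 2 (helper38): the ADAPTER to helper17's INTERP.

`deltaA C 𝔠 j : (Fin (n + n) → Φ.A) → Φ.A` is the `j`-th coordinate of the one-chart group law
`Δ_𝔠 (x, y)` of `GF/FormalAdd/Fin.lean` as a TOTAL function on `A`-vectors (first `n` entries = `x`,
last `n` entries = `y`), and

  `finPoly_deltaA : FinPoly (maximalIdeal Φ.A) (deltaA C 𝔠 j)`

is exactly the hypothesis of `GF/Interp/Uniform.existsUnique_poly_mod` (helper17).  Same for the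
transition functions (`transA`, `finPoly_transA`).
-/
import Mathlib
import Fermat.Agent.GF.FormalAdd.Fin
import Fermat.Agent.GF.Interp.Uniform

set_option autoImplicit false
set_option linter.unusedSectionVars false

noncomputable section

open AlgebraicCurve IsLocalRing

namespace Fermat.Agent.GF.FormalAdd

open Fermat.Agent.GH Fermat.Agent.GS.Frame Fermat.Agent.GF.Interp.Uniform

variable {K F k Sp 𝒬 : Type*} [Field K] [Field F] [Algebra K F] [Field k]
  [CommRing Sp] [Algebra k Sp]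
variable {Φ : DiscData K F k Sp 𝒬} {n : ℕ}

/-- the value in `K` of a polynomial over `Φ.A` evaluated at an `A`-vector. -/
theorem coe_eval_eq_aeval {ι : Type*} (z : ι → Φ.A) (P : MvPolynomial ι Φ.A) :
    ((MvPolynomial.eval z P : Φ.A) : K) = MvPolynomial.aeval (fun i => ((z i : Φ.A) : K)) P := by
  induction P using MvPolynomial.induction_on with
  | C a => simp
  | add p q hp hq => rw [map_add, map_add, AddMemClass.coe_add, hp, hq]
  | mul_X p i hp =>
    rw [map_mul, map_mul, MvPolynomial.eval_X, MvPolynomial.aeval_X, MulMemClass.coe_mul, hp]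

theorem small_of_mem {d : ℕ} {z : Fin d → Φ.A} (hz : ∀ i, z i ∈ maximalIdeal Φ.A)
    (f : Fin n → Fin d) : Small Φ n fun i => ((z (f i) : Φ.A) : K) :=
  fun i => (Φ.A.valuation_lt_one_iff _).mp (hz (f i))

variable {𝒦 : AddSubgroup (Pic0 K F)}

/-- the `j`-th coordinate of the one-chart group law as a total function on `A`-vectors. -/
def deltaA (C : Contracts Φ n 𝒦) (𝔠 : Chart Φ n) (j : Fin n) (z : Fin (n + n) → Φ.A) : Φ.A :=
  ⟨delta 𝒦 𝔠 (fun i => ((z (Fin.castAdd n i) : Φ.A) : K))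
      (fun i => ((z (Fin.natAdd n i) : Φ.A) : K)) j,
    (Φ.A.valuation_le_one_iff _).mp (le_of_lt (small_delta C 𝔠 _ _ j))⟩

/-- the `j`-th coordinate of a transition function as a total function on `A`-vectors. -/
def transA (C : Contracts Φ n 𝒦) (𝔞 𝔠 : Chart Φ n) (j : Fin n) (z : Fin n → Φ.A) : Φ.A :=
  ⟨transFun 𝒦 𝔞 𝔠 (fun i => ((z i : Φ.A) : K)) j,
    (Φ.A.valuation_le_one_iff _).mp (le_of_lt (small_transFun C 𝔞 𝔠 _ j))⟩

/-- **the one-chart group law satisfies helper17's `FinPoly`.** -/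
theorem finPoly_deltaA (C : Contracts Φ n 𝒦) (𝔠 : Chart Φ n) (j : Fin n) :
    FinPoly (maximalIdeal Φ.A) (deltaA C 𝔠 j) := by
  intro Z hZ
  set e := Z.equivFin with he
  set x : Fin Z.card → Fin n → K := fun t i => (((e.symm t : Fin (n + n) → Φ.A)
    (Fin.castAdd n i) : Φ.A) : K) with hx
  set y : Fin Z.card → Fin n → K := fun t i => (((e.symm t : Fin (n + n) → Φ.A)
    (Fin.natAdd n i) : Φ.A) : K) with hy
  obtain ⟨P, hP⟩ := delta_fin C 𝔠 (Fin Z.card) x y
    (fun t => small_of_mem (hZ _ (e.symm t).2) _) (fun t => small_of_mem (hZ _ (e.symm t).2) _) j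
  refine ⟨MvPolynomial.rename finSumFinEquiv P, fun z hz => ?_⟩
  apply Subtype.ext
  rw [coe_eval_eq_aeval, MvPolynomial.aeval_rename]
  have h1 := hP (e ⟨z, hz⟩)
  simp only [hx, hy, Equiv.symm_apply_apply] at h1
  show delta 𝒦 𝔠 _ _ j = _
  rw [h1]
  have h2 : (Sum.elim (fun i => ((z (Fin.castAdd n i) : Φ.A) : K))
      fun i => ((z (Fin.natAdd n i) : Φ.A) : K)) =
      (fun i => ((z i : Φ.A) : K)) ∘ ⇑(finSumFinEquiv (m := n) (n := n)) := by
    funext i
    rcases i with i | i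
    · simp [finSumFinEquiv_apply_left]
    · simp [finSumFinEquiv_apply_right]
  rw [h2]

/-- **the transition functions satisfy helper17's `FinPoly`** (`𝔟` any third chart disjoint from
both). -/
theorem finPoly_transA (C : Contracts Φ n 𝒦) (𝔞 𝔟 𝔠 : Chart Φ n)
    (hab : Disjoint 𝔞.supp 𝔟.supp) (hac : Disjoint 𝔞.supp 𝔠.supp) (hbc : Disjoint 𝔟.supp 𝔠.supp)
    (j : Fin n) : FinPoly (maximalIdeal Φ.A) (transA C 𝔞 𝔠 j) := by
  intro Z hZ
  set e := Z.equivFin with he
  set x : Fin Z.card → Fin n → K := fun t i => (((e.symm t : Fin n → Φ.A) i : Φ.A) : K) with hx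
  obtain ⟨P, hP⟩ := transFun_fin C 𝔞 𝔟 𝔠 hab hac hbc (Fin Z.card) x
    (fun t => small_of_mem (hZ _ (e.symm t).2) id) j
  refine ⟨P, fun z hz => ?_⟩
  apply Subtype.ext
  rw [coe_eval_eq_aeval]
  have h1 := hP (e ⟨z, hz⟩)
  simp only [hx, Equiv.symm_apply_apply] at h1
  exact h1

end Fermat.Agent.GF.FormalAdd
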